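import Fermat.Agent.Lib.Gamma0Cosets.Basic

set_option autoImplicit false

open scoped MatrixGroups
open CongruenceSubgroup Matrix

namespace Fermat.Agent.Lib.Gamma0Cosets

variable {N : ℕ}

theorem S_smul_pt_eq_iff {a c : ℤ} (h : IsCoprime a c) :
    ModularGroup.S • (pt a c h : X N) = pt a c h ↔ (a : ZMod N) ^ 2 + (c : ZMod N) ^ 2 = 0 := by
  rw [S_smul_pt, pt_eq_pt_iff]
  push_cast
  constructor
  · intro H; linear_combination -H
  · intro H; linear_combination -H

theorem ST_smul_pt_eq_iff {a c : ℤ} (h : IsCoprime a c) :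
    (ModularGroup.S * ModularGroup.T) • (pt a c h : X N) = pt a c h ↔
      (a : ZMod N) ^ 2 + (a : ZMod N) * (c : ZMod N) + (c : ZMod N) ^ 2 = 0 := by
  rw [ST_smul_pt, pt_eq_pt_iff]
  push_cast
  constructor
  · intro H; linear_combination -H
  · intro H; linear_combination -H

/-- the affine chart `x ↦ (x : 1)`. -/
noncomputable def affinePt (x : ZMod N) : X N := pt (x.cast : ℤ) 1 isCoprime_one_right

theorem affinePt_injective : Function.Injective (affinePt : ZMod N → X N) := by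
  intro x y hxy
  rw [affinePt, affinePt, pt_eq_pt_iff] at hxy
  simpa using hxy

theorem eq_affinePt_of_mul_eq_one {a c : ℤ} (h : IsCoprime a c) (w : ZMod N)
    (hw : (c : ZMod N) * w = 1) : (pt a c h : X N) = affinePt ((a : ZMod N) * w) := by
  rw [affinePt, pt_eq_pt_iff]
  simp only [ZMod.intCast_cast, ZMod.cast_id', id_eq, Int.cast_one, mul_one]
  linear_combination (-(a : ZMod N)) * hw

theorem card_fixedBy_S (N : ℕ) :
    Nat.card (MulAction.fixedBy (SL(2, ℤ) ⧸ Gamma0 N) ModularGroup.S) = ModularCurve.nuTwo N := by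
  rw [ModularCurve.nuTwo]
  symm
  refine Nat.card_congr (Equiv.ofBijective
    (fun x : {x : ZMod N // x ^ 2 + 1 = 0} =>
      (⟨affinePt x.1, by
        rw [MulAction.mem_fixedBy, affinePt, S_smul_pt_eq_iff]
        simpa using x.2⟩ : MulAction.fixedBy (SL(2, ℤ) ⧸ Gamma0 N) ModularGroup.S)) ⟨?_, ?_⟩)
  · intro x y hxy
    exact Subtype.ext (affinePt_injective (congrArg Subtype.val hxy))
  · rintro ⟨x, hx⟩
    obtain ⟨a, c, h, rfl⟩ := exists_pt x
    rw [MulAction.mem_fixedBy, S_smul_pt_eq_iff] at hx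
    obtain ⟨u, v, huv⟩ := id h
    have huv' : (u : ZMod N) * a + v * c = 1 := by exact_mod_cast congrArg (Int.cast : ℤ → ZMod N) huv
    set w : ZMod N := -(u : ZMod N) ^ 2 * c + 2 * u * v * a + (v : ZMod N) ^ 2 * c with hw
    have hcw : (c : ZMod N) * w = 1 := by
      rw [hw]
      linear_combination (-(u : ZMod N) ^ 2) * hx + ((u : ZMod N) * a + v * c + 1) * huv'
    refine ⟨⟨(a : ZMod N) * w, ?_⟩, Subtype.ext (eq_affinePt_of_mul_eq_one h w hcw).symm⟩
    linear_combination w ^ 2 * hx - ((c : ZMod N) * w + 1) * hcw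

theorem card_fixedBy_ST (N : ℕ) :
    Nat.card (MulAction.fixedBy (SL(2, ℤ) ⧸ Gamma0 N) (ModularGroup.S * ModularGroup.T)) =
      ModularCurve.nuThree N := by
  rw [ModularCurve.nuThree]
  symm
  refine Nat.card_congr (Equiv.ofBijective
    (fun x : {x : ZMod N // x ^ 2 + x + 1 = 0} =>
      (⟨affinePt x.1, by
        rw [MulAction.mem_fixedBy, affinePt, ST_smul_pt_eq_iff]
        simpa using x.2⟩ :
        MulAction.fixedBy (SL(2, ℤ) ⧸ Gamma0 N) (ModularGroup.S * ModularGroup.T))) ⟨?_, ?_⟩)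
  · intro x y hxy
    exact Subtype.ext (affinePt_injective (congrArg Subtype.val hxy))
  · rintro ⟨x, hx⟩
    obtain ⟨a, c, h, rfl⟩ := exists_pt x
    rw [MulAction.mem_fixedBy, ST_smul_pt_eq_iff] at hx
    obtain ⟨u, v, huv⟩ := id h
    have huv' : (u : ZMod N) * a + v * c = 1 := by exact_mod_cast congrArg (Int.cast : ℤ → ZMod N) huv
    set w : ZMod N := -(u : ZMod N) ^ 2 * (a + c) + 2 * u * v * a + (v : ZMod N) ^ 2 * c with hw
    have hcw : (c : ZMod N) * w = 1 := by
      rw [hw]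
      linear_combination (-(u : ZMod N) ^ 2) * hx + ((u : ZMod N) * a + v * c + 1) * huv'
    refine ⟨⟨(a : ZMod N) * w, ?_⟩, Subtype.ext (eq_affinePt_of_mul_eq_one h w hcw).symm⟩
    linear_combination w ^ 2 * hx - ((c : ZMod N) * w + 1 + (a : ZMod N) * w) * hcw

end Fermat.Agent.Lib.Gamma0Cosets
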