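import Fermat.Agent.Lib.Gamma0Cosets.NumberTheory
import Fermat.Agent.Lib.Gamma0Cosets.FixedPoints

set_option autoImplicit false

open scoped MatrixGroups
open CongruenceSubgroup Matrix

namespace Fermat.Agent.Lib.Gamma0Cosets

variable {N : ℕ}

noncomputable def repA (x : X N) : ℤ := (exists_pt x).choose
noncomputable def repC (x : X N) : ℤ := (exists_pt x).choose_spec.choose
theorem rep_coprime (x : X N) : IsCoprime (repA x) (repC x) :=
  (exists_pt x).choose_spec.choose_spec.choose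
theorem pt_rep (x : X N) : pt (repA x) (repC x) (rep_coprime x) = x :=
  (exists_pt x).choose_spec.choose_spec.choose_spec.symm

/-! ### Multiplicativity -/

noncomputable def crtMap (m n : ℕ) (x : X (m * n)) : X m × X n :=
  (pt (repA x) (repC x) (rep_coprime x), pt (repA x) (repC x) (rep_coprime x))

theorem crtMap_pt (m n : ℕ) {a c : ℤ} (h : IsCoprime a c) :
    crtMap m n (pt a c h) = (pt a c h, pt a c h) := by
  have h1 := pt_rep (pt a c h : X (m * n))
  rw [pt_eq_pt_iff_dvd] at h1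
  rw [crtMap, Prod.mk.injEq, pt_eq_pt_iff_dvd, pt_eq_pt_iff_dvd]
  push_cast at h1
  exact ⟨(Dvd.intro _ rfl).trans h1, (Dvd.intro_left _ rfl).trans h1⟩

theorem crtMap_injective {m n : ℕ} (hmn : m.Coprime n) : Function.Injective (crtMap m n) := by
  intro x y hxy
  rw [crtMap, crtMap, Prod.mk.injEq, pt_eq_pt_iff_dvd, pt_eq_pt_iff_dvd] at hxy
  rw [← pt_rep x, ← pt_rep y, pt_eq_pt_iff_dvd]
  push_cast
  exact (Nat.isCoprime_iff_coprime.mpr hmn).mul_dvd hxy.1 hxy.2

theorem crtMap_surjective {m n : ℕ} (hm : m ≠ 0) (hn : n ≠ 0) (hmn : m.Coprime n) :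
    Function.Surjective (crtMap m n) := by
  rintro ⟨x, y⟩
  obtain ⟨a₁, c₁, h₁, rfl⟩ := exists_pt x
  obtain ⟨a₂, c₂, h₂, rfl⟩ := exists_pt y
  obtain ⟨u, v, huv⟩ := Nat.isCoprime_iff_coprime.mpr hmn
  -- CRT
  set a : ℤ := a₁ * (v * n) + a₂ * (u * m) with ha
  set c₀ : ℤ := c₁ * (v * n) + c₂ * (u * m) with hc₀
  have hmn0 : ((m : ℤ) * n) ≠ 0 := by
    have : m * n ≠ 0 := Nat.mul_ne_zero hm hn
    exact_mod_cast this
  obtain ⟨c, hc0, s, hcs⟩ : ∃ c : ℤ, c ≠ 0 ∧ ∃ s : ℤ, c = c₀ + (m * n) * s := by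
    by_cases h0 : c₀ = 0
    · exact ⟨c₀ + m * n, by rw [h0, zero_add]; exact hmn0, 1, by ring⟩
    · exact ⟨c₀, h0, 0, by ring⟩
  have ham : (m : ℤ) ∣ a - a₁ := ⟨a₂ * u - a₁ * u, by rw [ha]; linear_combination a₁ * huv⟩
  have han : (n : ℤ) ∣ a - a₂ := ⟨a₁ * v - a₂ * v, by rw [ha]; linear_combination a₂ * huv⟩
  have hcm : (m : ℤ) ∣ c - c₁ :=
    ⟨c₂ * u - c₁ * u + n * s, by rw [hcs, hc₀]; linear_combination c₁ * huv⟩
  have hcn : (n : ℤ) ∣ c - c₂ :=
    ⟨c₁ * v - c₂ * v + m * s, by rw [hcs, hc₀]; linear_combination c₂ * huv⟩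
  obtain ⟨t, ht⟩ := exists_add_mul_isCoprime a (m * n) c hc0 (by
    intro z hz hza hzmn hzc
    rcases hz.dvd_or_dvd hzmn with h | h
    · have h1 : z ∣ a₁ := by
        have := dvd_sub hza (h.trans ham); simpa using this
      have h2 : z ∣ c₁ := by
        have := dvd_sub hzc (h.trans hcm); simpa using this
      exact hz.not_isUnit (h₁.isUnit_of_dvd' h1 h2)
    · have h1 : z ∣ a₂ := by
        have := dvd_sub hza (h.trans han); simpa using this
      have h2 : z ∣ c₂ := by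
        have := dvd_sub hzc (h.trans hcn); simpa using this
      exact hz.not_isUnit (h₂.isUnit_of_dvd' h1 h2))
  refine ⟨pt _ _ ht, ?_⟩
  rw [crtMap_pt, Prod.mk.injEq, pt_eq_pt_iff_dvd, pt_eq_pt_iff_dvd]
  obtain ⟨α, hα⟩ := ham
  obtain ⟨β, hβ⟩ := han
  obtain ⟨γ, hγ⟩ := hcm
  obtain ⟨δ, hδ⟩ := hcn
  constructor
  · refine ⟨α * c₁ + n * t * c₁ - γ * a₁, ?_⟩
    linear_combination c₁ * hα - a₁ * hγ
  · refine ⟨β * c₂ + m * t * c₂ - δ * a₂, ?_⟩
    linear_combination c₂ * hβ - a₂ * hδ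

theorem card_mul {m n : ℕ} (hm : m ≠ 0) (hn : n ≠ 0) (hmn : m.Coprime n) :
    Nat.card (X (m * n)) = Nat.card (X m) * Nat.card (X n) := by
  rw [← Nat.card_prod]
  exact Nat.card_congr (Equiv.ofBijective _ ⟨crtMap_injective hmn, crtMap_surjective hm hn hmn⟩)

theorem card_one : Nat.card (X 1) = 1 := by
  rw [Nat.card_eq_one_iff_unique]
  refine ⟨⟨fun x y => ?_⟩, ⟨pt 1 0 isCoprime_one_left⟩⟩
  rw [← pt_rep x, ← pt_rep y, pt_eq_pt_iff_dvd]
  simp

/-! ### Prime powers -/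

noncomputable def ppMap (p j : ℕ) : ZMod (p ^ (j + 1)) ⊕ ZMod (p ^ j) → X (p ^ (j + 1))
  | Sum.inl x => affinePt x
  | Sum.inr y => pt 1 ((p : ℤ) * (y.cast : ℤ)) isCoprime_one_left

theorem ppMap_injective {p : ℕ} (hp : p.Prime) (j : ℕ) : Function.Injective (ppMap p j) := by
  have hp0 : (p : ℤ) ≠ 0 := by exact_mod_cast hp.ne_zero
  rintro (x | y) (x' | y') H
  · exact congrArg Sum.inl (affinePt_injective H)
  · exfalso
    rw [ppMap, ppMap, affinePt, pt_eq_pt_iff_dvd] at H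
    have h1 : (p : ℤ) ∣ ((p ^ (j + 1) : ℕ) : ℤ) := by
      push_cast; exact dvd_pow_self _ (Nat.succ_ne_zero j)
    have h2 := h1.trans H
    have h3 : (p : ℤ) ∣ 1 := by
      have h4 : (p : ℤ) ∣ (x.cast : ℤ) * ((p : ℤ) * (y'.cast : ℤ)) := ⟨x.cast * y'.cast, by ring⟩
      have := dvd_sub h4 h2
      simpa using this
    exact (Nat.prime_iff_prime_int.mp hp).not_isUnit (isUnit_of_dvd_one h3)
  · exfalso
    rw [ppMap, ppMap, affinePt, pt_eq_pt_iff_dvd] at H
    have h1 : (p : ℤ) ∣ ((p ^ (j + 1) : ℕ) : ℤ) := by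
      push_cast; exact dvd_pow_self _ (Nat.succ_ne_zero j)
    have h2 := h1.trans H
    have h3 : (p : ℤ) ∣ 1 := by
      have h4 : (p : ℤ) ∣ ((p : ℤ) * (y.cast : ℤ)) * (x'.cast : ℤ) := ⟨y.cast * x'.cast, by ring⟩
      have := dvd_add h2 h4
      simpa using this
    exact (Nat.prime_iff_prime_int.mp hp).not_isUnit (isUnit_of_dvd_one h3)
  · rw [ppMap, ppMap, pt_eq_pt_iff_dvd] at H
    have h1 : ((p ^ j : ℕ) : ℤ) ∣ (y'.cast : ℤ) - (y.cast : ℤ) := by
      have : (1 : ℤ) * ((p : ℤ) * (y'.cast : ℤ)) - (p : ℤ) * (y.cast : ℤ) * 1 =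
          (p : ℤ) * ((y'.cast : ℤ) - (y.cast : ℤ)) := by ring
      rw [this] at H
      push_cast at H ⊢
      rw [pow_succ'] at H
      exact (mul_dvd_mul_iff_left hp0).mp H
    rw [← ZMod.intCast_zmod_eq_zero_iff_dvd] at h1
    push_cast at h1
    exact congrArg Sum.inr (sub_eq_zero.mp h1).symm

theorem exists_mul_eq_one_of_isCoprime {M : ℕ} {c : ℤ} (h : IsCoprime c (M : ℤ)) :
    ∃ w : ZMod M, (c : ZMod M) * w = 1 := by
  obtain ⟨u, v, huv⟩ := h
  refine ⟨(u : ZMod M), ?_⟩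
  have := congrArg (Int.cast : ℤ → ZMod M) huv
  push_cast at this
  rw [ZMod.natCast_self, mul_zero, add_zero] at this
  rw [mul_comm]; exact this

theorem ppMap_surjective {p : ℕ} (hp : p.Prime) (j : ℕ) : Function.Surjective (ppMap p j) := by
  have hpp : Prime (p : ℤ) := Nat.prime_iff_prime_int.mp hp
  intro x
  obtain ⟨a, c, h, rfl⟩ := exists_pt x
  by_cases hc : (p : ℤ) ∣ c
  · obtain ⟨c', rfl⟩ := hc
    have hap : IsCoprime a (p : ℤ) := h.of_isCoprime_of_dvd_right (Dvd.intro _ rfl)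
    have hap' : IsCoprime a ((p ^ j : ℕ) : ℤ) := by push_cast; exact hap.pow_right
    obtain ⟨w, hw⟩ := exists_mul_eq_one_of_isCoprime hap'
    refine ⟨Sum.inr ((c' : ZMod (p ^ j)) * w), ?_⟩
    rw [ppMap, pt_eq_pt_iff_dvd]
    have h1 : ((p ^ j : ℕ) : ℤ) ∣ c' - ((((c' : ZMod (p ^ j)) * w).cast : ℤ)) * a := by
      rw [← ZMod.intCast_zmod_eq_zero_iff_dvd]
      push_cast
      linear_combination (-(c' : ZMod (p ^ j))) * hw
    obtain ⟨r, hr⟩ := h1
    refine ⟨r, ?_⟩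
    push_cast at hr ⊢
    rw [pow_succ']
    linear_combination (p : ℤ) * hr
  · have hcp : IsCoprime c (p : ℤ) := ((Prime.coprime_iff_not_dvd hpp).mpr hc).symm
    have hcp' : IsCoprime c ((p ^ (j + 1) : ℕ) : ℤ) := by push_cast; exact hcp.pow_right
    obtain ⟨w, hw⟩ := exists_mul_eq_one_of_isCoprime hcp'
    exact ⟨Sum.inl ((a : ZMod (p ^ (j + 1))) * w), (eq_affinePt_of_mul_eq_one h w hw).symm⟩

theorem card_prime_pow {p : ℕ} (hp : p.Prime) (j : ℕ) :
    Nat.card (X (p ^ (j + 1))) = p ^ (j + 1) + p ^ j := by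
  have : NeZero (p ^ (j + 1)) := ⟨pow_ne_zero _ hp.ne_zero⟩
  have : NeZero (p ^ j) := ⟨pow_ne_zero _ hp.ne_zero⟩
  rw [← Nat.card_congr (Equiv.ofBijective _ ⟨ppMap_injective hp j, ppMap_surjective hp j⟩),
    Nat.card_sum, Nat.card_zmod, Nat.card_zmod]

/-! ### The Dedekind psi function -/

open ArithmeticFunction in
/-- indicator of squarefree numbers -/
def sqf : ArithmeticFunction ℕ := ⟨fun n => if Squarefree n then 1 else 0, by simp⟩

open ArithmeticFunction in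
theorem sqf_isMultiplicative : sqf.IsMultiplicative := by
  refine ⟨by simp [sqf], ?_⟩
  intro m n hmn
  simp only [sqf, ArithmeticFunction.coe_mk, Nat.squarefree_mul hmn]
  by_cases h1 : Squarefree m <;> by_cases h2 : Squarefree n <;> simp [h1, h2]

open ArithmeticFunction in
theorem dedekindPsi_eq (n : ℕ) : ModularCurve.dedekindPsi n = (sqf * ArithmeticFunction.id) n := by
  rw [ModularCurve.dedekindPsi, ArithmeticFunction.mul_apply,
    Nat.sum_divisorsAntidiagonal (fun a b => sqf a * ArithmeticFunction.id b), Finset.sum_filter]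
  refine Finset.sum_congr rfl fun d _ => ?_
  by_cases h : Squarefree d <;> simp [sqf, h]

theorem dedekindPsi_mul {m n : ℕ} (hmn : m.Coprime n) :
    ModularCurve.dedekindPsi (m * n) = ModularCurve.dedekindPsi m * ModularCurve.dedekindPsi n := by
  rw [dedekindPsi_eq, dedekindPsi_eq, dedekindPsi_eq]
  exact (sqf_isMultiplicative.mul ArithmeticFunction.isMultiplicative_id).map_mul_of_coprime hmn

theorem dedekindPsi_prime_pow {p : ℕ} (hp : p.Prime) (j : ℕ) :
    ModularCurve.dedekindPsi (p ^ (j + 1)) = p ^ (j + 1) + p ^ j := by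
  rw [ModularCurve.dedekindPsi, Finset.sum_filter, Nat.sum_divisors_prime_pow hp,
    Finset.sum_range_succ', Finset.sum_range_succ']
  have h0 : ∀ i ∈ Finset.range j,
      (if Squarefree (p ^ (i + 1 + 1)) then p ^ (j + 1) / p ^ (i + 1 + 1) else 0) = 0 := by
    intro i _
    rw [if_neg]
    rw [Nat.squarefree_pow_iff hp.ne_one (by omega)]
    omega
  rw [Finset.sum_eq_zero h0]
  have h1 : Squarefree (p ^ (0 + 1)) := by simpa using hp.squarefree
  rw [if_pos h1, if_pos (by simp)]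
  simp only [zero_add, pow_one, pow_zero, Nat.div_one]
  rw [pow_succ, Nat.mul_div_cancel _ hp.pos]
  ring

theorem card_quotient (N : ℕ) [NeZero N] :
    Nat.card (SL(2, ℤ) ⧸ Gamma0 N) = ModularCurve.dedekindPsi N := by
  have key : ∀ n : ℕ, n ≠ 0 → Nat.card (X n) = ModularCurve.dedekindPsi n := by
    intro n
    induction n using Nat.recOnPosPrimePosCoprime with
    | prime_pow p k hp hk =>
      intro _
      obtain ⟨j, rfl⟩ : ∃ j, k = j + 1 := ⟨k - 1, by omega⟩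
      rw [card_prime_pow hp, dedekindPsi_prime_pow hp]
    | zero => intro h; exact absurd rfl h
    | one => intro _; rw [card_one, ModularCurve.dedekindPsi_one]
    | coprime a b ha hb hab iha ihb =>
      intro _
      rw [card_mul (by omega) (by omega) hab, dedekindPsi_mul hab, iha (by omega), ihb (by omega)]
  exact key N (NeZero.ne N)

theorem index_Gamma0 (N : ℕ) [NeZero N] : (Gamma0 N).index = ModularCurve.dedekindPsi N :=
  card_quotient N

end Fermat.Agent.Lib.Gamma0Cosets
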