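import Fermat.Agent.Lib.Gamma0Cosets.NumberTheory

set_option autoImplicit false

open scoped MatrixGroups
open CongruenceSubgroup Matrix

namespace Fermat.Agent.Lib.Gamma0Cosets

variable {N : ℕ}

/-- `g_d = gcd(d, N/d)`. -/
abbrev gg (N d : ℕ) : ℕ := Nat.gcd d (N / d)

theorem gg_ne_zero {d : ℕ} (hd : d ∈ N.divisors) : gg N d ≠ 0 := by
  have := Nat.pos_of_mem_divisors hd
  exact Nat.gcd_ne_zero_left this.ne'

/-- lift of a unit mod `g_d` to an integer coprime to `d`. -/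
theorem exists_lift_unit {d : ℕ} (hd : d ∈ N.divisors) (ι : (ZMod (gg N d))ˣ) :
    ∃ a : ℤ, IsCoprime a (d : ℤ) ∧ ((a : ℤ) : ZMod (gg N d)) = ι := by
  have hd0 : d ≠ 0 := (Nat.pos_of_mem_divisors hd).ne'
  have hcop : Nat.Coprime (ι : ZMod (gg N d)).val (gg N d) := ZMod.val_coe_unit_coprime ι
  have hcop' : IsCoprime (((ι : ZMod (gg N d)).val : ℕ) : ℤ) ((gg N d : ℕ) : ℤ) :=
    Nat.isCoprime_iff_coprime.mpr hcop
  obtain ⟨t, ht⟩ := exists_add_mul_isCoprime' (((ι : ZMod (gg N d)).val : ℕ) : ℤ) (gg N d : ℕ) d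
    (by exact_mod_cast hd0) (gg N d : ℕ) (fun z _ h => h) hcop'
  refine ⟨_, ht, ?_⟩
  have : NeZero (gg N d) := ⟨gg_ne_zero hd⟩
  push_cast
  simp

/-- chosen lift -/
noncomputable def liftUnit {d : ℕ} (hd : d ∈ N.divisors) (ι : (ZMod (gg N d))ˣ) : ℤ :=
  (exists_lift_unit hd ι).choose

theorem liftUnit_isCoprime {d : ℕ} (hd : d ∈ N.divisors) (ι : (ZMod (gg N d))ˣ) :
    IsCoprime (liftUnit hd ι) (d : ℤ) := (exists_lift_unit hd ι).choose_spec.1

theorem liftUnit_cast {d : ℕ} (hd : d ∈ N.divisors) (ι : (ZMod (gg N d))ˣ) :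
    ((liftUnit hd ι : ℤ) : ZMod (gg N d)) = ι := (exists_lift_unit hd ι).choose_spec.2

/-- The set of cusps: `T`-orbits on the coset space. -/
abbrev Cusps (N : ℕ) : Type :=
  MulAction.orbitRel.Quotient (Subgroup.zpowers ModularGroup.T) (SL(2, ℤ) ⧸ Gamma0 N)

theorem cusp_eq_iff (x y : X N) :
    (Quotient.mk'' x : Cusps N) = Quotient.mk'' y ↔ ∃ k : ℤ, (ModularGroup.T ^ k) • y = x := by
  rw [Quotient.eq'', MulAction.orbitRel_apply, MulAction.mem_orbit_iff]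
  constructor
  · rintro ⟨⟨τ, hτ⟩, h⟩
    obtain ⟨k, rfl⟩ := Subgroup.mem_zpowers_iff.mp hτ
    exact ⟨k, h⟩
  · rintro ⟨k, h⟩
    exact ⟨⟨ModularGroup.T ^ k, Subgroup.zpow_mem_zpowers _ k⟩, h⟩

theorem cusp_pt_eq_iff {a c a' c' : ℤ} (h : IsCoprime a c) (h' : IsCoprime a' c') :
    (Quotient.mk'' (pt a c h : X N) : Cusps N) = Quotient.mk'' (pt a' c' h' : X N) ↔
      ∃ k : ℤ, (N : ℤ) ∣ (a' + k * c') * c - c' * a := by
  rw [cusp_eq_iff]
  simp only [T_zpow_smul_pt, pt_eq_pt_iff_dvd]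

/-- parametrisation of the cusps -/
noncomputable def cuspOf (p : Σ d : N.divisors, (ZMod (gg N d))ˣ) : Cusps N :=
  Quotient.mk'' (pt (liftUnit p.1.2 p.2) (p.1.1 : ℤ) (liftUnit_isCoprime p.1.2 p.2))

theorem gcd_natCast_of_dvd {d : ℕ} (hd : d ∣ N) : Int.gcd (d : ℤ) (N : ℤ) = d := by
  rw [Int.gcd_natCast_natCast]; exact Nat.gcd_eq_left hd

theorem cuspOf_injective : Function.Injective (cuspOf : _ → Cusps N) := by
  rintro ⟨⟨d, hd⟩, ι⟩ ⟨⟨d', hd'⟩, ι'⟩ H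
  rw [cuspOf, cuspOf, cusp_pt_eq_iff] at H
  obtain ⟨k, hk⟩ := H
  simp only at hk
  have hdN : d ∣ N := Nat.dvd_of_mem_divisors hd
  have hd'N : d' ∣ N := Nat.dvd_of_mem_divisors hd'
  have hcop : IsCoprime (liftUnit hd' ι' + k * (d' : ℤ)) (d' : ℤ) := by
    simpa [mul_comm] using (liftUnit_isCoprime hd' ι').add_mul_left_left k
  have hdd : d' = d := by
    have := gcd_eq_of_dvd hcop (liftUnit_isCoprime hd ι) hk
    rwa [gcd_natCast_of_dvd hd'N, gcd_natCast_of_dvd hdN] at this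
  subst hdd
  have hd0 : (d' : ℤ) ≠ 0 := by exact_mod_cast (Nat.pos_of_mem_divisors hd).ne'
  -- N = d * e
  have hNe : (N : ℤ) = (d' : ℤ) * ((N / d' : ℕ) : ℤ) := by
    exact_mod_cast (Nat.mul_div_cancel' hdN).symm
  have h1 : ((N / d' : ℕ) : ℤ) ∣ liftUnit hd' ι' + k * (d' : ℤ) - liftUnit hd ι := by
    rw [hNe] at hk
    have : (liftUnit hd' ι' + k * (d' : ℤ)) * (d' : ℤ) - (d' : ℤ) * liftUnit hd ι =
        (d' : ℤ) * (liftUnit hd' ι' + k * (d' : ℤ) - liftUnit hd ι) := by ring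
    rw [this] at hk
    exact (mul_dvd_mul_iff_left hd0).mp hk
  have h2 : ((gg N d' : ℕ) : ℤ) ∣ liftUnit hd' ι' - liftUnit hd ι := by
    have hg1 : ((gg N d' : ℕ) : ℤ) ∣ ((N / d' : ℕ) : ℤ) := by
      exact_mod_cast Nat.gcd_dvd_right d' (N / d')
    have hg2 : ((gg N d' : ℕ) : ℤ) ∣ (d' : ℤ) := by
      exact_mod_cast Nat.gcd_dvd_left d' (N / d')
    have : liftUnit hd' ι' - liftUnit hd ι =
        (liftUnit hd' ι' + k * (d' : ℤ) - liftUnit hd ι) - k * (d' : ℤ) := by ring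
    rw [this]
    exact dvd_sub (hg1.trans h1) (hg2.mul_left k)
  have h3 : ((liftUnit hd' ι' : ℤ) : ZMod (gg N d')) = ((liftUnit hd ι : ℤ) : ZMod (gg N d')) := by
    rw [← sub_eq_zero, ← Int.cast_sub, ZMod.intCast_zmod_eq_zero_iff_dvd]
    exact h2
  rw [liftUnit_cast, liftUnit_cast] at h3
  have : ι = ι' := (Units.ext h3).symm
  subst this
  rfl

theorem cuspOf_surjective (hN : N ≠ 0) : Function.Surjective (cuspOf : _ → Cusps N) := by
  intro q
  induction q using Quotient.inductionOn' with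
  | h x =>
    obtain ⟨a, c, h, rfl⟩ := exists_pt x
    obtain ⟨a', ha', hdvd⟩ := exists_normal_form hN h
    set d : ℕ := Int.gcd c N with hd
    have hdN : d ∣ N := by
      have : (d : ℤ) ∣ (N : ℤ) := Int.gcd_dvd_right ..
      exact_mod_cast this
    have hdmem : d ∈ N.divisors := Nat.mem_divisors.mpr ⟨hdN, hN⟩
    have hg1 : ((gg N d : ℕ) : ℤ) ∣ ((N / d : ℕ) : ℤ) := by
      exact_mod_cast Nat.gcd_dvd_right d (N / d)
    have hg2 : ((gg N d : ℕ) : ℤ) ∣ (d : ℤ) := by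
      exact_mod_cast Nat.gcd_dvd_left d (N / d)
    have hunit : IsUnit ((a' : ℤ) : ZMod (gg N d)) := by
      obtain ⟨u, v, huv⟩ := ha'.of_isCoprime_of_dvd_right hg2
      have := congrArg (Int.cast : ℤ → ZMod (gg N d)) huv
      push_cast at this
      rw [ZMod.natCast_self, mul_zero, add_zero] at this
      exact IsUnit.of_mul_eq_one _ (by rw [mul_comm]; exact this)
    refine ⟨⟨⟨d, hdmem⟩, hunit.unit⟩, ?_⟩
    have hpt : (pt a c h : X N) = pt a' (d : ℤ) ha' := by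
      rw [pt_eq_pt_iff_dvd]
      have : a * (d : ℤ) - c * a' = -(a' * c - (d : ℤ) * a) := by ring
      rw [this]; exact (dvd_neg).mpr hdvd
    rw [hpt, cuspOf, cusp_pt_eq_iff]
    simp only
    set a'' := liftUnit hdmem hunit.unit with ha''
    have hcast : ((a'' : ℤ) : ZMod (gg N d)) = ((a' : ℤ) : ZMod (gg N d)) := by
      rw [ha'', liftUnit_cast]; rfl
    have hdiv : ((gg N d : ℕ) : ℤ) ∣ a'' - a' := by
      rw [← ZMod.intCast_zmod_eq_zero_iff_dvd, Int.cast_sub, hcast, sub_self]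
    obtain ⟨m, hm⟩ := hdiv
    have hbez : ((gg N d : ℕ) : ℤ) = (d : ℤ) * Nat.gcdA d (N / d) + ((N / d : ℕ) : ℤ) * Nat.gcdB d (N / d) :=
      Nat.gcd_eq_gcd_ab d (N / d)
    have hNe : (N : ℤ) = (d : ℤ) * ((N / d : ℕ) : ℤ) := by
      exact_mod_cast (Nat.mul_div_cancel' hdN).symm
    -- want k with N ∣ (a' + k d) d - d a''
    refine ⟨Nat.gcdA d (N / d) * m, ⟨- Nat.gcdB d (N / d) * m, ?_⟩⟩
    rw [hNe]
    have : a'' = a' + ((gg N d : ℕ) : ℤ) * m := by linarith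
    rw [this, hbez]
    ring

theorem card_orbits_T (N : ℕ) [NeZero N] :
    Nat.card (MulAction.orbitRel.Quotient (Subgroup.zpowers ModularGroup.T)
      (SL(2, ℤ) ⧸ Gamma0 N)) = ModularCurve.cuspCount N := by
  have hN : N ≠ 0 := NeZero.ne N
  rw [← Nat.card_congr (Equiv.ofBijective _ ⟨cuspOf_injective (N := N), cuspOf_surjective hN⟩)]
  rw [Nat.card_sigma, ModularCurve.cuspCount,
    ← Finset.sum_coe_sort N.divisors (fun d => Nat.totient (Nat.gcd d (N / d)))]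
  refine Finset.sum_congr rfl ?_
  rintro ⟨d, hd⟩ -
  have : NeZero (gg N d) := ⟨gg_ne_zero hd⟩
  rw [Nat.card_eq_fintype_card, ZMod.card_units_eq_totient]

end Fermat.Agent.Lib.Gamma0Cosets
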