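import Fermat.Agent.Lib.Gamma0Cosets.Basic

set_option autoImplicit false

namespace Fermat.Agent.Lib.Gamma0Cosets

/-- (N3) If `x` is coprime to `gcd(d,e)` and `d ≠ 0`, some `x + e t` is coprime to `d`. -/
theorem exists_add_mul_isCoprime (x e d : ℤ) (hd : d ≠ 0)
    (h : ∀ z : ℤ, Prime z → z ∣ x → z ∣ e → ¬ z ∣ d) : ∃ t : ℤ, IsCoprime (x + e * t) d := by
  classical
  set s : Finset ℕ := d.natAbs.primeFactors.filter (fun p => ¬ (p : ℤ) ∣ x) with hs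
  refine ⟨∏ p ∈ s, (p : ℤ), ?_⟩
  apply isCoprime_of_prime_dvd
  · rintro ⟨-, h0⟩; exact hd h0
  intro z hz hz1 hz2
  have hp : (z.natAbs).Prime := Int.prime_iff_natAbs_prime.mp hz
  have hzp : z ∣ (z.natAbs : ℤ) := Int.dvd_natAbs_self
  have hpz : (z.natAbs : ℤ) ∣ z := Int.natAbs_dvd.mpr dvd_rfl
  have hmem : z.natAbs ∈ d.natAbs.primeFactors := by
    rw [Nat.mem_primeFactors]
    exact ⟨hp, Int.natAbs_dvd_natAbs.mpr hz2, Int.natAbs_ne_zero.mpr hd⟩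
  by_cases hx : (z.natAbs : ℤ) ∣ x
  · have hzx : z ∣ x := hzp.trans hx
    have h1 : z ∣ e * ∏ p ∈ s, (p : ℤ) := (dvd_add_right hzx).mp hz1
    rcases hz.dvd_or_dvd h1 with h2 | h2
    · exact h z hz hzx h2 hz2
    · obtain ⟨p, hps, hzp'⟩ := (Prime.dvd_finsetProd_iff hz _).mp h2
      rw [hs, Finset.mem_filter, Nat.mem_primeFactors] at hps
      have : z.natAbs ∣ p := by
        have := Int.natAbs_dvd_natAbs.mpr hzp'
        simpa using this
      have heq : z.natAbs = p := (Nat.prime_dvd_prime_iff_eq hp hps.1.1).mp this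
      exact hps.2 (heq ▸ hx)
  · have hmem' : z.natAbs ∈ s := by
      rw [hs, Finset.mem_filter]; exact ⟨hmem, hx⟩
    have h1 : (z.natAbs : ℤ) ∣ ∏ p ∈ s, (p : ℤ) := Finset.dvd_prod_of_mem (fun p : ℕ => (p : ℤ)) hmem'
    have h2 : z ∣ e * ∏ p ∈ s, (p : ℤ) := (hzp.trans h1).mul_left e
    exact hx (hpz.trans ((dvd_add_left h2).mp hz1))

/-- (N3') version with a coprimality hypothesis. -/
theorem exists_add_mul_isCoprime' (x e d : ℤ) (hd : d ≠ 0) (g : ℤ) (hgd : ∀ z, z ∣ d → z ∣ e → z ∣ g)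
    (h : IsCoprime x g) : ∃ t : ℤ, IsCoprime (x + e * t) d := by
  apply exists_add_mul_isCoprime x e d hd
  intro z hz hzx hze hzd
  exact hz.not_isUnit (h.isUnit_of_dvd' hzx (hgd z hzd hze))

variable {N : ℕ}

/-- (N1) the invariant `gcd(c,N)`. -/
theorem gcd_dvd_gcd_of_dvd {a c a' c' : ℤ} (h : IsCoprime a c)
    (H : (N : ℤ) ∣ a * c' - c * a') : Int.gcd c N ∣ Int.gcd c' N := by
  have h1 : ((Int.gcd c N : ℕ) : ℤ) ∣ c := Int.gcd_dvd_left ..
  have h2 : ((Int.gcd c N : ℕ) : ℤ) ∣ N := Int.gcd_dvd_right ..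
  have h3 : ((Int.gcd c N : ℕ) : ℤ) ∣ a * c' := by
    have : a * c' = (a * c' - c * a') + c * a' := by ring
    rw [this]
    exact dvd_add (h2.trans H) (h1.mul_right a')
  have h4 : IsCoprime ((Int.gcd c N : ℕ) : ℤ) a := (h.of_isCoprime_of_dvd_right h1).symm
  have h5 : ((Int.gcd c N : ℕ) : ℤ) ∣ c' := h4.dvd_of_dvd_mul_left h3
  exact Int.natCast_dvd_natCast.mp (Int.dvd_coe_gcd h5 h2)

theorem gcd_eq_of_dvd {a c a' c' : ℤ} (h : IsCoprime a c) (h' : IsCoprime a' c')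
    (H : (N : ℤ) ∣ a * c' - c * a') : Int.gcd c N = Int.gcd c' N := by
  apply Nat.dvd_antisymm (gcd_dvd_gcd_of_dvd h H)
  apply gcd_dvd_gcd_of_dvd h'
  have : a' * c - c' * a = -(a * c' - c * a') := by ring
  rw [this]; exact (dvd_neg).mpr H

/-- (N2) normal form: every point is `(a' : d)` with `d = gcd(c,N)`. -/
theorem exists_normal_form (hN : N ≠ 0) {a c : ℤ} (h : IsCoprime a c) :
    ∃ a' : ℤ, IsCoprime a' ((Int.gcd c N : ℕ) : ℤ) ∧
      (N : ℤ) ∣ a' * c - ((Int.gcd c N : ℕ) : ℤ) * a := by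
  set d : ℕ := Int.gcd c N with hd
  have hd0 : (d : ℤ) ≠ 0 := by
    have : d ≠ 0 := by
      rw [hd]; intro h0
      rw [Int.gcd_eq_zero_iff] at h0
      exact hN (by exact_mod_cast h0.2)
    exact_mod_cast this
  obtain ⟨c₁, hc₁⟩ : (d : ℤ) ∣ c := Int.gcd_dvd_left ..
  obtain ⟨e, he⟩ : (d : ℤ) ∣ (N : ℤ) := Int.gcd_dvd_right ..
  -- Bezout
  have hbez : ∃ r s : ℤ, r * c₁ + s * e = 1 := by
    have := Int.gcd_eq_gcd_ab c N
    rw [← hd] at this
    refine ⟨Int.gcdA c N, Int.gcdB c N, ?_⟩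
    apply mul_left_cancel₀ hd0
    calc (d : ℤ) * (Int.gcdA c N * c₁ + Int.gcdB c N * e)
        = (d * c₁) * Int.gcdA c N + (d * e) * Int.gcdB c N := by ring
      _ = c * Int.gcdA c N + N * Int.gcdB c N := by rw [← hc₁, ← he]
      _ = d * 1 := by rw [← this, mul_one]
  obtain ⟨r, s, hrs⟩ := hbez
  have had : IsCoprime a (d : ℤ) := h.of_isCoprime_of_dvd_right ⟨c₁, hc₁⟩
  have hre : IsCoprime r e := ⟨c₁, s, by linarith⟩
  obtain ⟨t, ht⟩ := exists_add_mul_isCoprime (a * r) e d hd0 (by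
    intro z hz hzx hze hzd
    rcases hz.dvd_or_dvd hzx with h1 | h1
    · exact hz.not_isUnit (had.isUnit_of_dvd' h1 hzd)
    · exact hz.not_isUnit (hre.isUnit_of_dvd' h1 hze))
  refine ⟨a * r + e * t, ht, ⟨-a * s + t * c₁, ?_⟩⟩
  rw [he, hc₁]
  linear_combination (d : ℤ) * a * hrs

end Fermat.Agent.Lib.Gamma0Cosets
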