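import Mathlib
import Fermat.Prelude.Def_ModularCurve_GenusNumerics

set_option autoImplicit false

open scoped MatrixGroups
open CongruenceSubgroup Matrix

namespace Fermat.Agent.Lib.Gamma0Cosets

variable (N : ℕ)

/-- The coset space `SL(2,ℤ) ⧸ Γ₀(N)`. -/
abbrev X : Type := SL(2, ℤ) ⧸ Gamma0 N

variable {N}

theorem inv_mul_apply_one_zero (g h : SL(2, ℤ)) :
    (g⁻¹ * h) 1 0 = g 0 0 * h 1 0 - g 1 0 * h 0 0 := by
  have h1 : (g⁻¹ : SL(2,ℤ)) 1 0 = - g 1 0 := by
    rw [Matrix.SpecialLinearGroup.SL2_inv_expl]; rfl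
  have h2 : (g⁻¹ : SL(2,ℤ)) 1 1 = g 0 0 := by
    rw [Matrix.SpecialLinearGroup.SL2_inv_expl]; rfl
  rw [Matrix.SpecialLinearGroup.coe_mul, Matrix.mul_apply, Fin.sum_univ_two, h1, h2]
  ring

theorem mk_eq_mk_iff (g h : SL(2, ℤ)) :
    (QuotientGroup.mk g : X N) = QuotientGroup.mk h ↔
      (N : ℤ) ∣ g 0 0 * h 1 0 - g 1 0 * h 0 0 := by
  rw [QuotientGroup.eq, Gamma0_mem, ZMod.intCast_zmod_eq_zero_iff_dvd, inv_mul_apply_one_zero]

/-- A matrix in `SL(2,ℤ)` with prescribed coprime first column. -/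
noncomputable def matOf (a c : ℤ) (h : IsCoprime a c) : SL(2, ℤ) :=
  ⟨!![a, -h.choose_spec.choose; c, h.choose], by
    rw [Matrix.det_fin_two_of]
    have := h.choose_spec.choose_spec
    linarith⟩

@[simp] theorem matOf_zero_zero (a c : ℤ) (h : IsCoprime a c) : matOf a c h 0 0 = a := rfl
@[simp] theorem matOf_one_zero (a c : ℤ) (h : IsCoprime a c) : matOf a c h 1 0 = c := rfl

/-- The point of `SL(2,ℤ) ⧸ Γ₀(N)` with "first column" `(a, c)`. -/
noncomputable def pt (a c : ℤ) (h : IsCoprime a c) : X N := QuotientGroup.mk (matOf a c h)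

theorem pt_eq_pt_iff_dvd {a c a' c' : ℤ} (h : IsCoprime a c) (h' : IsCoprime a' c') :
    (pt a c h : X N) = pt a' c' h' ↔ (N : ℤ) ∣ a * c' - c * a' := by
  rw [pt, pt, mk_eq_mk_iff]; rfl

theorem pt_eq_pt_iff {a c a' c' : ℤ} (h : IsCoprime a c) (h' : IsCoprime a' c') :
    (pt a c h : X N) = pt a' c' h' ↔ (a : ZMod N) * (c' : ZMod N) = (c : ZMod N) * (a' : ZMod N) := by
  rw [pt_eq_pt_iff_dvd, ← ZMod.intCast_zmod_eq_zero_iff_dvd]
  push_cast
  exact sub_eq_zero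

theorem isCoprime_col (g : SL(2, ℤ)) : IsCoprime (g 0 0) (g 1 0) := by
  refine ⟨g 1 1, - g 0 1, ?_⟩
  have := g.det_coe
  rw [Matrix.det_fin_two] at this
  linarith

theorem mk_eq_pt (g : SL(2, ℤ)) :
    (QuotientGroup.mk g : X N) = pt (g 0 0) (g 1 0) (isCoprime_col g) := by
  rw [pt, mk_eq_mk_iff]
  simp [mul_comm]

theorem exists_pt (x : X N) : ∃ (a c : ℤ) (h : IsCoprime a c), x = pt a c h := by
  induction x using QuotientGroup.induction_on with
  | H g => exact ⟨_, _, _, mk_eq_pt g⟩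

theorem isCoprime_smul (g : SL(2, ℤ)) {a c : ℤ} (h : IsCoprime a c) :
    IsCoprime (g 0 0 * a + g 0 1 * c) (g 1 0 * a + g 1 1 * c) := by
  obtain ⟨u, v, huv⟩ := h
  have hd := g.det_coe
  rw [Matrix.det_fin_two] at hd
  refine ⟨u * g 1 1 - v * g 1 0, - u * g 0 1 + v * g 0 0, ?_⟩
  linear_combination (u * a + v * c) * hd + huv

theorem smul_pt (g : SL(2, ℤ)) {a c : ℤ} (h : IsCoprime a c) :
    g • (pt a c h : X N) = pt (g 0 0 * a + g 0 1 * c) (g 1 0 * a + g 1 1 * c) (isCoprime_smul g h) := by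
  have : g • (pt a c h : X N) = QuotientGroup.mk (g * matOf a c h) := rfl
  rw [this, mk_eq_pt, pt_eq_pt_iff_dvd]
  simp [Matrix.SpecialLinearGroup.coe_mul, Matrix.mul_apply, Fin.sum_univ_two]
  ring_nf
  simp

theorem pt_congr {a c a' c' : ℤ} (h : IsCoprime a c) (h' : IsCoprime a' c') (ha : a = a')
    (hc : c = c') : (pt a c h : X N) = pt a' c' h' := by
  subst ha hc; rfl

theorem S_smul_pt {a c : ℤ} (h : IsCoprime a c) :
    ModularGroup.S • (pt a c h : X N) = pt (-c) a h.symm.neg_left := by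
  rw [smul_pt]
  apply pt_congr <;> simp [ModularGroup.S]

theorem T_smul_pt {a c : ℤ} (h : IsCoprime a c) :
    ModularGroup.T • (pt a c h : X N) = pt (a + c) c (by simpa using h.add_mul_left_left 1) := by
  rw [smul_pt]
  apply pt_congr <;> simp [ModularGroup.T]

theorem T_zpow_smul_pt (k : ℤ) {a c : ℤ} (h : IsCoprime a c) :
    (ModularGroup.T ^ k) • (pt a c h : X N) = pt (a + k * c) c (by simpa [mul_comm] using h.add_mul_left_left k) := by
  rw [smul_pt]
  apply pt_congr <;> simp [ModularGroup.coe_T_zpow]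

theorem ST_smul_pt {a c : ℤ} (h : IsCoprime a c) :
    (ModularGroup.S * ModularGroup.T) • (pt a c h : X N) =
      pt (-c) (a + c) (by simpa using (h.symm.add_mul_left_right 1).neg_left) := by
  rw [mul_smul, T_smul_pt, S_smul_pt]

end Fermat.Agent.Lib.Gamma0Cosets
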